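import Fermat.Agent.S33.ND.Hecke
import Fermat.Agent.GR.S.R.Tr3
import Fermat.Agent.GR.S.R.Gauss
import Fermat.Agent.GR.D.Vert.GaussO
import Fermat.Agent.GT.Brg.Defs

/-!
# S15-ATP, Hecke layer, file `Unit`: `T_q u / u ^ (q + 1)` is a unit at the Gauss valuation

`A` over `p`, `q ≠ p` a prime not dividing the level `N`.
* `isPrim_heckeMulT`: MODEL = the proof of `S33.ND.nearOne_heckeMulT` (`S33/ND/Hecke.lean`): `F = incl A f`, `red A f ≠ 0` (`isPrim_iff`);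
  `z` from `S33.ND.exists_unit_primitive`; `heckeMulT q ζ (incl A f) = incl A (heckeMulT q z f)` (`coeffMap_heckeMulT`);
  `red A (heckeMulT q z f) = heckeMulT q z̄ (red A f) ≠ 0` (`heckeMulT_ne_zero`); `isPrim_incl_iff`.
* `eta_eq_div`: `u = C κ * (F / G)` (`GR.exists_normalized A N hu h0`), `heckeMulT` is multiplicative (`heckeMulTHom`, `heckeMulT_C`), so
  `T u / u ^ (q+1) = (T F * G ^ (q+1)) / (T G * F ^ (q+1))`; products and powers of primitive series are primitive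
  (`GR.S.R.Gauss_isPrim_mul`); membership `GR.B.heckeMulT_mem_FF_Qbar`.
* `mem_gaussO_of_prim_div`: `GR.S.R.mapFF_mem_iff` (with `GR.S.R.exists_isGaussRing`, `GR.D.Vert.gaussO_spec`, `GR.D.Vert.gaussRing`);
  `a / b` and `b / a` are `IsGaussInt A N`.
-/

set_option autoImplicit false
set_option synthInstance.maxHeartbeats 400000

noncomputable section

namespace Fermat.Agent.S15.ATP

open Fermat.Agent.GR Fermat.Agent.GR.E Fermat.Agent.GR.D.Vert Fermat.Agent.GS Fermat.Agent.GT.Brg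
  ModularCurve

variable {N p q : ℕ} {A : ValuationSubring Qbar}

theorem isPrim_heckeMulT [NeZero q] (hp : p.Prime) (hA : A.LiesOverPrime p) (hq : q.Prime)
    (hqp : q ≠ p) (ζ : Qbarˣ) (hζ : IsPrimitiveRoot ζ q) {F : LaurentSeries Qbar}
    (hF : IsPrim A F) : IsPrim A (heckeMulT q ζ F) := by
  have : Fact q.Prime := ⟨hq⟩
  obtain ⟨f, rfl⟩ := (isInt_iff A).mp hF.1
  obtain ⟨z, hz, hz1⟩ := S33.ND.exists_unit_primitive hp hA hq hqp ζ hζ
  have hi : incl A (heckeMulT q z f) = heckeMulT q ζ (incl A f) := by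
    rw [incl, coeffMap_heckeMulT, hz]
  have hr : red A (heckeMulT q z f) =
      heckeMulT q (Units.map (IsLocalRing.residue A : ↥A →* IsLocalRing.ResidueField A) z)
        (red A f) := by
    rw [red, coeffMap_heckeMulT]
  rw [← hi, isPrim_incl_iff, hr]
  exact heckeMulT_ne_zero q _ hz1 ((isPrim_incl_iff A f).mp hF)

theorem Unit_isPrim_pow {F : LaurentSeries Qbar} (hF : IsPrim A F) (m : ℕ) : IsPrim A (F ^ m) := by
  induction m with
  | zero =>
    rw [pow_zero]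
    exact GR.S.R.Gauss_isPrim_one A
  | succ m ih =>
    rw [pow_succ]
    exact GR.S.R.Gauss_isPrim_mul A ih hF

theorem eta_eq_div [NeZero N] [NeZero q] (hp : p.Prime) (hA : A.LiesOverPrime p) (hq : q.Prime)
    (hqp : q ≠ p) (hqN : ¬ q ∣ N) (ζ : Qbarˣ) (hζ : IsPrimitiveRoot ζ q)
    {u : LaurentSeries Qbar} (hu : u ∈ FF Qbar N) (h0 : u ≠ 0) :
    ∃ a b : LaurentSeries Qbar, a ∈ FF Qbar N ∧ b ∈ FF Qbar N ∧ IsPrim A a ∧ IsPrim A b ∧
      heckeMulT q ζ u / u ^ (q + 1) = a / b := by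
  have : Fact q.Prime := ⟨hq⟩
  obtain ⟨κ, F, G, hκ, hF, hG, hpF, hpG, rfl⟩ := GR.exists_normalized A N hu h0
  have hTF := GR.B.heckeMulT_mem_FF_Qbar q hqN ζ hζ hF
  have hTG := GR.B.heckeMulT_mem_FF_Qbar q hqN ζ hζ hG
  have hF0 := GR.S.R.Gauss_isPrim_ne_zero A hpF
  have hG0 := GR.S.R.Gauss_isPrim_ne_zero A hpG
  have hTG0 := heckeMulT_ne_zero q ζ hζ hG0
  have hC0 : (HahnSeries.C κ : LaurentSeries Qbar) ≠ 0 := by
    intro h
    exact hκ (HahnSeries.C_injective (by rw [h, map_zero]))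
  refine ⟨heckeMulT q ζ F * G ^ (q + 1), heckeMulT q ζ G * F ^ (q + 1),
    mul_mem hTF (pow_mem hG _), mul_mem hTG (pow_mem hF _),
    GR.S.R.Gauss_isPrim_mul A (isPrim_heckeMulT hp hA hq hqp ζ hζ hpF) (Unit_isPrim_pow hpG _),
    GR.S.R.Gauss_isPrim_mul A (isPrim_heckeMulT hp hA hq hqp ζ hζ hpG) (Unit_isPrim_pow hpF _), ?_⟩
  rw [heckeMulT_mul q ζ hζ, heckeMulT_div q ζ hζ, heckeMulT_C, map_pow, mul_pow, div_pow]
  field_simp

/-- a function over `L` which over `ℚ̄` is a quotient of two primitive functions is a unit of the Gauss valuation ring. -/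
theorem mem_gaussO_of_prim_div {L : IntermediateField ℚ Qb} [IsDiscreteValuationRing (RL A L)]
    {y : FF L N} {a b : LaurentSeries Qb} (ha : a ∈ FF Qb N) (hb : b ∈ FF Qb N) (hpa : IsPrim A a)
    (hpb : IsPrim A b) (h : coeffMap (algebraMap L Qb) (y : LaurentSeries L) = a / b) :
    y ∈ gaussO (RL A L) N ∧ y⁻¹ ∈ gaussO (RL A L) N := by
  obtain ⟨𝒪, h𝒪⟩ := GR.S.R.exists_isGaussRing A N
  obtain ⟨ϖ, hϖ⟩ := IsDiscreteValuationRing.exists_irreducible (RL A L)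
  have key := GR.S.R.mapFF_mem_iff h𝒪 L (gaussO (RL A L) N) (gaussO_spec _ _) ϖ hϖ
    (gaussRing _ _ hϖ)
  have ha0 := GR.S.R.Gauss_isPrim_ne_zero A hpa
  have hb0 := GR.S.R.Gauss_isPrim_ne_zero A hpb
  have hy : ((mapFF (algebraMap L Qb) N y : FF Qb N) : LaurentSeries Qb) = a / b := h
  constructor
  · rw [← key, h𝒪.spec]
    exact ⟨a, b, ha, hb, hpa.1, hpb, by rw [hy, div_mul_cancel₀ _ hb0]⟩
  · rw [← key, h𝒪.spec, map_inv₀]
    refine ⟨b, a, hb, ha, hpb.1, hpa, ?_⟩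
    rw [IntermediateField.coe_inv, hy, inv_div, div_mul_cancel₀ _ ha0]

end Fermat.Agent.S15.ATP
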