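import Fermat.Agent.S15.ATP.Hecke.WT
import Fermat.Agent.S15.ATP.Hecke.Unit
import Fermat.Agent.GR.I.CharTheoryMk
import Fermat.Agent.GS.FW.AL
import Fermat.Agent.GR.C.LinDisj

/-!
# S15-ATP, Hecke layer, file `Eta`: the operator `η_q u = T_q u / u ^ (q + 1)`

TOOLS: `heckeMulTHom q ζ hζ` (`GR/F/Main.lean`: `heckeMulT` as a `→*₀`, so `map_mul`, `map_pow`, `map_div₀`), `heckeMulT_ne_zero`,
`GR.B.heckeMulT_mem_FF_Qbar` (needs `Fact q.Prime`), `(GR.I.charTheory N).heckeStable ι n q ζ hq hqN hζ` (`GR/I/Build.lean`,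
`ι : Qbar →+* ℂ` from `GS.nonempty_Qbar_hom`), `IsKummer.mul/.div/.pow`, `coeffMap_heckeMulT`, `GR.C.mem_FF_of_coeffMap_mem`.
-/

set_option autoImplicit false
set_option synthInstance.maxHeartbeats 400000

noncomputable section

namespace Fermat.Agent.S15.ATP

open Fermat.Agent.GR Fermat.Agent.GR.E Fermat.Agent.GS Fermat.Agent.GT Fermat.Agent.GT.EMB
  Fermat.Agent.GT.Brg ModularCurve

/-- `η_q u = T_q u / u ^ (q + 1)`. -/
def eta (q : ℕ) [NeZero q] (ζ : Qbarˣ) (u : LaurentSeries Qbar) : LaurentSeries Qbar :=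
  heckeMulT q ζ u / u ^ (q + 1)

variable {N n q : ℕ} [NeZero N] [NeZero q] {ζ : Qbarˣ} {u v : LaurentSeries Qbar}

theorem eta_mem (hq : q.Prime) (hqN : ¬ q ∣ N) (hζ : IsPrimitiveRoot ζ q) (hu : u ∈ FF Qbar N) :
    eta q ζ u ∈ FF Qbar N := by
  have : Fact q.Prime := ⟨hq⟩
  exact div_mem (GR.B.heckeMulT_mem_FF_Qbar q hqN ζ hζ hu) (pow_mem hu _)

theorem eta_ne_zero (hζ : IsPrimitiveRoot ζ q) (hu : u ≠ 0) : eta q ζ u ≠ 0 :=
  div_ne_zero (heckeMulT_ne_zero q ζ hζ hu) (pow_ne_zero _ hu)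

theorem isKummer_eta (hq : q.Prime) (hqN : ¬ q ∣ N) (hζ : IsPrimitiveRoot ζ q)
    (hu : IsKummer (N := N) n u) : IsKummer (N := N) n (eta q ζ u) := by
  obtain ⟨ι⟩ := GS.nonempty_Qbar_hom
  exact (((GR.I.charTheory N).heckeStable ι n q ζ hq hqN hζ).2 u hu).div (hu.pow _)

/-- `v = u z ^ n` gives `η v = η u (η z) ^ n`. -/
theorem eta_congr (hq : q.Prime) (hqN : ¬ q ∣ N) (hζ : IsPrimitiveRoot ζ q) (hu : u ≠ 0)
    (h : KummerEquiv N n u v) : KummerEquiv N n (eta q ζ u) (eta q ζ v) := by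
  obtain ⟨z, hz, hz0, rfl⟩ := h
  refine ⟨eta q ζ z, eta_mem hq hqN hζ hz, eta_ne_zero hζ hz0, ?_⟩
  unfold eta
  have h1 : heckeMulT q ζ (z ^ n) = heckeMulT q ζ z ^ n :=
    map_pow (Fermat.Agent.GR.heckeMulTHom q ζ hζ) z n
  rw [heckeMulT_mul q ζ hζ, h1, mul_pow, div_pow, ← pow_mul, ← pow_mul, mul_comm n (q + 1),
    mul_div_mul_comm]

/-- `η` of a function defined over `L ∋ ζ` is defined over `L`.  [`ζL : Lˣ` with `Units.map (algebraMap L Qb) ζL = ζ`;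
`y := heckeMulT q ζL u / u ^ (q + 1)` as a series over `L`; `coeffMap_heckeMulT`, `map_div₀`, `map_pow`; membership by
`GR.C.mem_FF_of_coeffMap_mem` and `eta_mem`.] -/
theorem exists_eta_over (hq : q.Prime) (hqN : ¬ q ∣ N) (hζ : IsPrimitiveRoot ζ q)
    {L : IntermediateField ℚ Qb} (hζL : (ζ : Qb) ∈ L) (u : FF L N) :
    ∃ y : FF L N, coeffMap (algebraMap L Qb) (y : LaurentSeries L) =
      eta q ζ (coeffMap (algebraMap L Qb) (u : LaurentSeries L)) := by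
  have hζ0 : (ζ : Qb) ≠ 0 := ζ.ne_zero
  let z : L := ⟨(ζ : Qb), hζL⟩
  have hz0 : z ≠ 0 := fun h => hζ0 (congrArg Subtype.val h)
  let ζL : Lˣ := Units.mk0 z hz0
  have hmap : Units.map ((algebraMap L Qb : L →+* Qb) : L →* Qb) ζL = ζ := by
    ext
    rfl
  have hu : coeffMap (algebraMap L Qb) (u : LaurentSeries L) ∈ FF Qbar N :=
    GR.C.coeffMap_mem_FF N (algebraMap L Qb) u.2
  have key : coeffMap (algebraMap L Qb)
      (heckeMulT q ζL (u : LaurentSeries L) / (u : LaurentSeries L) ^ (q + 1)) =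
      eta q ζ (coeffMap (algebraMap L Qb) (u : LaurentSeries L)) := by
    rw [map_div₀, map_pow, coeffMap_heckeMulT, hmap]
    rfl
  refine ⟨⟨heckeMulT q ζL (u : LaurentSeries L) / (u : LaurentSeries L) ^ (q + 1), ?_⟩, key⟩
  apply GR.C.mem_FF_of_coeffMap_mem (Ω := Qb)
  rw [key]
  exact eta_mem hq hqN hζ hu

/-- `w_p` commutes with `η_q` (`wQ_heckeMulT`, `map_div₀`, `map_pow`). -/
theorem wQ_eta {p : ℕ} [NeZero (p * 4)] [NeZero (p * (4 * q))] (hq : q.Prime) (hqN : ¬ q ∣ p * 4)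
    (hcop : p.Coprime (4 * q)) (hζ : IsPrimitiveRoot ζ q) (x : FF Qbar (p * 4))
    (hmem : eta q ζ (x : LaurentSeries Qbar) ∈ FF Qbar (p * 4)) :
    ((wQ Qbar p 4 ⟨eta q ζ (x : LaurentSeries Qbar), hmem⟩ : FF Qbar (p * 4)) :
        LaurentSeries Qbar) =
      eta q ζ ((wQ Qbar p 4 x : FF Qbar (p * 4)) : LaurentSeries Qbar) := by
  have : Fact q.Prime := ⟨hq⟩
  have hT : heckeMulT q ζ (x : LaurentSeries Qbar) ∈ FF Qbar (p * 4) :=
    GR.B.heckeMulT_mem_FF_Qbar q hqN ζ hζ x.2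
  have h1 : (⟨eta q ζ (x : LaurentSeries Qbar), hmem⟩ : FF Qbar (p * 4)) =
      ⟨heckeMulT q ζ (x : LaurentSeries Qbar), hT⟩ / x ^ (q + 1) := by
    apply Subtype.ext
    rw [IntermediateField.coe_div, IntermediateField.coe_pow]
    rfl
  rw [h1, map_div₀, map_pow, IntermediateField.coe_div, IntermediateField.coe_pow,
    wQ_heckeMulT hq hqN hcop ζ hζ x hT]
  rfl

end Fermat.Agent.S15.ATP
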