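import Fermat.Agent.GS.WQ
import Fermat.Agent.GT.Iface
import Fermat.Agent.GR.S.Hecke.Norm

/-!
# S15-ATP, Hecke layer, file `WT`: the Atkin-Lehner involution `w_p` of level `p * 4` commutes with `heckeMulT q` (`q ∤ 4 p`)

`T_q u = N_α (β u)`: `α : FF (p * 4) ⊆ FF (p * (4 * q))` the inclusion, `β u = u(t ^ q)`, `N_α = GT.normFF` (`GR.S.norm_heckeBeta`).
`w' = wQ Qbar p (4 * q)` restricts to `w = wQ Qbar p 4` on `FF (p * 4)` (`wQ_up`), commutes with `β` (`wQ_qExpand`): both are statements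
on the generators `j(t ^ d)` (`GT.EMB.algHom_ext_gen`, `GT.EMB.gen`, `GT.EMB.wQ_gen`, `GT.EMB.alIdx`, `GS.isWQ_wQ`, `GS.isWQ_iff_gen`; compare
the proof of `GS.IsWQ.eq_wQ`), and the norm is compatible with a pair of compatible automorphisms (`Algebra.norm_eq_of_equiv_equiv`).
-/

set_option autoImplicit false
set_option synthInstance.maxHeartbeats 400000

noncomputable section

namespace Fermat.Agent.S15.ATP

open Fermat.Agent.GR Fermat.Agent.GR.E Fermat.Agent.GS Fermat.Agent.GT Fermat.Agent.GT.EMB ModularCurve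

variable {p q : ℕ}

theorem dvd_up (p q : ℕ) : p * 4 ∣ p * (4 * q) := ⟨q, by ring⟩

theorem mem_up {x : LaurentSeries Qbar} (hx : x ∈ FF Qbar (p * 4)) : x ∈ FF Qbar (p * (4 * q)) :=
  BR8_FF_le Qbar (dvd_up p q) hx

/-- `x(t ^ q)` has level `p * (4 * q)`.  [`IntermediateField.adjoin_induction` as in `GR.I.exists_level_of_mem_FF`; on generators
`qExpand q (qExpand d j) = qExpand (q * d) j` (`GR.S.Norm_qExpand_jd`), constants: `GR.S.Norm_qExpand_algebraMap`; or see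
`GT.Brg.qExpand_mem_sq` (`GT/Brg/NormL.lean`) for the same proof at another level.] -/
theorem qExpand_mem_up [NeZero q] {x : LaurentSeries Qbar} (hx : x ∈ FF Qbar (p * 4)) :
    qExpand Qbar q x ∈ FF Qbar (p * (4 * q)) := by
  exact FF_mono Qbar ⟨1, by ring⟩ (qExpand_mem_FF q hx)

variable [NeZero (p * 4)] [NeZero (p * (4 * q))]

/-- (H2a) `w_p` of level `p * (4 * q)` restricts to `w_p` of level `p * 4`. -/
theorem wQ_up (hcop : p.Coprime (4 * q)) (x : FF Qbar (p * 4)) :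
    ((wQ Qbar p (4 * q) ⟨x, mem_up x.2⟩ : FF Qbar (p * (4 * q))) : LaurentSeries Qbar) =
      (wQ Qbar p 4 x : FF Qbar (p * 4)) := by
  obtain ⟨ι⟩ := nonempty_Qbar_hom
  have hcop4 : p.Coprime 4 := Nat.Coprime.coprime_mul_right_right hcop
  let φ₁ : FF Qbar (p * 4) →+* LaurentSeries Qbar :=
    ((FF Qbar (p * (4 * q))).val.toRingHom.comp (wQ Qbar p (4 * q)).toAlgHom.toRingHom).comp
      (IntermediateField.inclusion (BR8_FF_le Qbar (dvd_up p q))).toRingHom
  let φ₂ : FF Qbar (p * 4) →+* LaurentSeries Qbar :=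
    (FF Qbar (p * 4)).val.toRingHom.comp (wQ Qbar p 4).toAlgHom.toRingHom
  have h12 : φ₁ = φ₂ := by
    apply ringHom_ext_gen (p * 4)
    · intro c
      change ((wQ Qbar p (4 * q) (algebraMap Qbar (FF Qbar (p * (4 * q))) c) :
        FF Qbar (p * (4 * q))) : LaurentSeries Qbar) =
        ((wQ Qbar p 4 (algebraMap Qbar (FF Qbar (p * 4)) c) : FF Qbar (p * 4)) :
          LaurentSeries Qbar)
      rw [AlgEquiv.commutes, AlgEquiv.commutes]
      rfl
    · intro d hd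
      change ((wQ Qbar p (4 * q) (gen Qbar (p * (4 * q)) d (hd.trans (dvd_up p q))) :
        FF Qbar (p * (4 * q))) : LaurentSeries Qbar) =
        ((wQ Qbar p 4 (gen Qbar (p * 4) d hd) : FF Qbar (p * 4)) : LaurentSeries Qbar)
      rw [wQ_gen ι p (4 * q) hcop, wQ_gen ι p 4 hcop4]
  exact DFunLike.congr_fun h12 x

/-- (H2b) `w_p` commutes with `x ↦ x(t ^ q)`. -/
theorem wQ_qExpand [NeZero q] (hcop : p.Coprime (4 * q)) (x : FF Qbar (p * 4)) :
    ((wQ Qbar p (4 * q) ⟨qExpand Qbar q x, qExpand_mem_up x.2⟩ : FF Qbar (p * (4 * q))) :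
        LaurentSeries Qbar) =
      qExpand Qbar q ((wQ Qbar p 4 x : FF Qbar (p * 4)) : LaurentSeries Qbar) := by
  obtain ⟨ι⟩ := nonempty_Qbar_hom
  have hcop4 : p.Coprime 4 := Nat.Coprime.coprime_mul_right_right hcop
  have hdvd : q * (p * 4) ∣ p * (4 * q) := ⟨1, by ring⟩
  let φ₁ : FF Qbar (p * 4) →+* LaurentSeries Qbar :=
    ((FF Qbar (p * (4 * q))).val.toRingHom.comp (wQ Qbar p (4 * q)).toAlgHom.toRingHom).comp
      (Level_expHom Qbar q (p * 4) (p * (4 * q)) hdvd)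
  let φ₂ : FF Qbar (p * 4) →+* LaurentSeries Qbar :=
    (qExpand Qbar q).comp ((FF Qbar (p * 4)).val.toRingHom.comp (wQ Qbar p 4).toAlgHom.toRingHom)
  have h12 : φ₁ = φ₂ := by
    apply ringHom_ext_gen (p * 4)
    · intro c
      change ((wQ Qbar p (4 * q) (Level_expHom Qbar q (p * 4) (p * (4 * q)) hdvd
        (algebraMap Qbar (FF Qbar (p * 4)) c)) : FF Qbar (p * (4 * q))) : LaurentSeries Qbar) =
        qExpand Qbar q ((wQ Qbar p 4 (algebraMap Qbar (FF Qbar (p * 4)) c) : FF Qbar (p * 4)) :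
          LaurentSeries Qbar)
      rw [Level_expHom_algebraMap, AlgEquiv.commutes, AlgEquiv.commutes]
      exact (Level_qExpand_algebraMap q c).symm
    · intro d hd
      change ((wQ Qbar p (4 * q) (Level_expHom Qbar q (p * 4) (p * (4 * q)) hdvd
        (gen Qbar (p * 4) d hd)) : FF Qbar (p * (4 * q))) : LaurentSeries Qbar) =
        qExpand Qbar q ((wQ Qbar p 4 (gen Qbar (p * 4) d hd) : FF Qbar (p * 4)) :
          LaurentSeries Qbar)
      rw [Level_expHom_gen, wQ_gen ι p (4 * q) hcop, wQ_gen ι p 4 hcop4, qExpand_jd]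
      obtain ⟨a, b, ha, hb, rfl⟩ := ALIdx_exists_mul hd
      have e : q * (a * b) = a * (b * q) := by ring
      rw [alIdx_mul hcop4 ha hb, e, alIdx_mul hcop ha (Nat.mul_dvd_mul_right hb q)]
      congr 1
      ring
  exact DFunLike.congr_fun h12 x

/-- transport of a norm along equalities of intermediate fields (helper for `heckeMulT_eq_normFF`): `subst`, then the two algebra
structures are equal because the two embeddings are (`AlgHom.ext`, `Subtype.ext`). -/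
theorem norm_transport {K M : Type*} [Field K] [Field M] [Algebra K M]
    {E₁ E₁' E₂ E₂' : IntermediateField K M} (h : E₁ = E₂) (h' : E₁' = E₂')
    (a₁ : E₁ →ₐ[K] E₁') (ha₁ : ∀ x : E₁, ((a₁ x : E₁') : M) = x)
    (a₂ : E₂ →ₐ[K] E₂') (ha₂ : ∀ x : E₂, ((a₂ x : E₂') : M) = x)
    (f₁ : E₁') (f₂ : E₂') (hf : (f₁ : M) = f₂) :
    (((letI := a₁.toRingHom.toAlgebra; Algebra.norm E₁ f₁) : E₁) : M) =
      ((letI := a₂.toRingHom.toAlgebra; Algebra.norm E₂ f₂) : E₂) := by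
  subst h h'
  have ha : a₁ = a₂ := AlgHom.ext fun x => Subtype.ext ((ha₁ x).trans (ha₂ x).symm)
  have hf' : f₁ = f₂ := Subtype.ext hf
  subst ha hf'
  rfl

/-- (H2c) `T_q` is the norm of `x(t ^ q)`.  [`GR.S.norm_heckeBeta (p * 4) q`, `GR.S.bar_eq_FF`, `GR.S.coe_heckeAlphaBar`,
`GR.S.coe_heckeBetaBar`, `algebraAlong`, `Nat.mul_assoc p 4 q`, `norm_transport`.] -/
theorem heckeMulT_eq_normFF [NeZero q] (hq : q.Prime) (hqN : ¬ q ∣ p * 4) (ζ : Qbarˣ)
    (hζ : IsPrimitiveRoot ζ q) (x : FF Qbar (p * 4)) :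
    heckeMulT q ζ (x : LaurentSeries Qbar) =
      (normFF Qbar (dvd_up p q) ⟨qExpand Qbar q x, qExpand_mem_up x.2⟩ : FF Qbar (p * 4)) := by
  have hx' : (x : LaurentSeries Qbar) ∈ modularFunctionFieldBar (p * 4) := by
    rw [GR.S.bar_eq_FF]; exact x.2
  have key := GR.S.norm_heckeBeta (p * 4) q hq hqN ζ hζ ⟨(x : LaurentSeries Qbar), hx'⟩
  have tr := norm_transport (K := Qbar) (M := LaurentSeries Qbar)
    (E₁ := modularFunctionFieldBar (p * 4)) (E₁' := modularFunctionFieldBar (p * 4 * q))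
    (E₂ := FF Qbar (p * 4)) (E₂' := FF Qbar (p * (4 * q))) (GR.S.bar_eq_FF (p * 4))
    ((GR.S.bar_eq_FF (p * 4 * q)).trans (congrArg (FF Qbar) (Nat.mul_assoc p 4 q)))
    (heckeAlphaBar Qbar (p * 4) q) (fun y => coe_heckeAlphaBar (p * 4) q y)
    (IntermediateField.inclusion (BR8_FF_le Qbar (dvd_up p q))) (fun y => rfl)
    (heckeBetaBar Qbar (p * 4) q ⟨(x : LaurentSeries Qbar), hx'⟩)
    ⟨qExpand Qbar q x, qExpand_mem_up x.2⟩ (coe_heckeBetaBar (p * 4) q _)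
  exact key.symm.trans tr

/-- (H2d) the norm commutes with `w_p`.  [`Algebra.norm_eq_of_equiv_equiv` with `wQ Qbar p 4`, `wQ Qbar p (4 * q)` as ring
equivalences; the compatibility square is `wQ_up`.] -/
theorem normFF_wQ (hcop : p.Coprime (4 * q)) (z : FF Qbar (p * (4 * q))) :
    normFF Qbar (dvd_up p q) (wQ Qbar p (4 * q) z) = wQ Qbar p 4 (normFF Qbar (dvd_up p q) z) := by
  unfold normFF
  let _ : Algebra (FF Qbar (p * 4)) (FF Qbar (p * (4 * q))) :=
    (IntermediateField.inclusion (BR8_FF_le Qbar (dvd_up p q))).toRingHom.toAlgebra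
  have h := Algebra.norm_eq_of_equiv_equiv (A₁ := FF Qbar (p * 4)) (B₁ := FF Qbar (p * (4 * q)))
    (A₂ := FF Qbar (p * 4)) (B₂ := FF Qbar (p * (4 * q)))
    (wQ Qbar p 4).toRingEquiv (wQ Qbar p (4 * q)).toRingEquiv
    (RingHom.ext fun x => Subtype.ext (wQ_up hcop x).symm) z
  have h2 := congrArg (wQ Qbar p 4).toRingEquiv h
  rw [RingEquiv.apply_symm_apply] at h2
  exact h2.symm

/-- (H2) `w_p` commutes with `T_q`. -/
theorem wQ_heckeMulT [NeZero q] (hq : q.Prime) (hqN : ¬ q ∣ p * 4) (hcop : p.Coprime (4 * q))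
    (ζ : Qbarˣ) (hζ : IsPrimitiveRoot ζ q) (x : FF Qbar (p * 4))
    (hmem : heckeMulT q ζ (x : LaurentSeries Qbar) ∈ FF Qbar (p * 4)) :
    ((wQ Qbar p 4 ⟨heckeMulT q ζ (x : LaurentSeries Qbar), hmem⟩ : FF Qbar (p * 4)) :
        LaurentSeries Qbar) =
      heckeMulT q ζ ((wQ Qbar p 4 x : FF Qbar (p * 4)) : LaurentSeries Qbar) := by
  have h1 : (⟨heckeMulT q ζ (x : LaurentSeries Qbar), hmem⟩ : FF Qbar (p * 4)) =
      normFF Qbar (dvd_up p q) ⟨qExpand Qbar q x, qExpand_mem_up x.2⟩ :=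
    Subtype.ext (heckeMulT_eq_normFF hq hqN ζ hζ x)
  have h2 : wQ Qbar p (4 * q) ⟨qExpand Qbar q x, qExpand_mem_up x.2⟩ =
      ⟨qExpand Qbar q ((wQ Qbar p 4 x : FF Qbar (p * 4)) : LaurentSeries Qbar),
        qExpand_mem_up (wQ Qbar p 4 x).2⟩ := Subtype.ext (wQ_qExpand hcop x)
  rw [h1, ← normFF_wQ hcop, h2, heckeMulT_eq_normFF hq hqN ζ hζ (wQ Qbar p 4 x)]

end Fermat.Agent.S15.ATP
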